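import Fermat.Agent.DirichletHadamard.RealPart

/-!
# Monotonicity of `|ξ (s, χ)|` and the zeros of its derivative
-/

set_option autoImplicit false

noncomputable section

namespace FA.DirichletHadamard

open Complex Filter Topology Set
open DirichletCharacter (LFunction completedLFunction)
open FA.DirichletZeroCount FA.DirichletLandau
open scoped Real ComplexConjugate

variable {q : ℕ} [NeZero q] {χ : DirichletCharacter ℂ q}

/-- `ξ (s, χ) = q ^ (s / 2) Λ (s, χ)`. -/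
def xiL (χ : DirichletCharacter ℂ q) (s : ℂ) : ℂ := (q : ℂ) ^ (s / 2) * completedLFunction χ s

/-- `ξ'/ξ`. -/
def xiLLog (χ : DirichletCharacter ℂ q) (s : ℂ) : ℂ := deriv (xiL χ) s / xiL χ s

theorem xiL_eq_zero_iff (χ : DirichletCharacter ℂ q) (s : ℂ) :
    xiL χ s = 0 ↔ completedLFunction χ s = 0 := by
  rw [xiL, mul_eq_zero, or_iff_right (Complex.cpow_ne_zero_iff.2 (Or.inl level_cast_ne_zero))]

theorem hasDerivAt_xiL (hχ : χ ≠ 1) (s : ℂ) :
    HasDerivAt (xiL χ) ((q : ℂ) ^ (s / 2) * (((Real.log q / 2 : ℝ) : ℂ) * completedLFunction χ s +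
      deriv (completedLFunction χ) s)) s := by
  refine ((((hasDerivAt_id' s).div_const 2).const_cpow (c := (q : ℂ))
    (Or.inl level_cast_ne_zero)).mul
      (DirichletCharacter.differentiable_completedLFunction hχ s).hasDerivAt).congr_deriv ?_
  rw [← Complex.natCast_log]
  push_cast
  ring

theorem differentiable_xiL (hχ : χ ≠ 1) : Differentiable ℂ (xiL χ) := fun s =>
  (hasDerivAt_xiL hχ s).differentiableAt

theorem xiLLog_eq (hχ : χ ≠ 1) {s : ℂ} (hs : completedLFunction χ s ≠ 0) :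
    xiLLog χ s = ((Real.log q / 2 : ℝ) : ℂ) + lLog χ s := by
  have hc : (q : ℂ) ^ (s / 2) ≠ 0 := Complex.cpow_ne_zero_iff.2 (Or.inl level_cast_ne_zero)
  rw [xiLLog, (hasDerivAt_xiL hχ s).deriv, xiL, lLog]
  field_simp

theorem hasSum_xiLLog (hp : χ.IsPrimitive) (hχ : χ ≠ 1) {s : ℂ}
    (hs : completedLFunction χ s ≠ 0) : HasSum (realTerm χ s) (xiLLog χ s).re := by
  rw [xiLLog_eq hχ hs, add_re, ofReal_re, add_comm]
  exact hasSum_realTerm hp hχ hs

theorem exists_mult_pos (hp : χ.IsPrimitive) (hχ : χ ≠ 1) :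
    ∃ ρ, 0 < lMult χ ρ ∧ 0 < ρ.re ∧ ρ.re < 1 := by
  obtain ⟨ρ, h, h0, h1⟩ := (infinite_lZeros hp hχ).nonempty
  exact ⟨ρ, (lMult_pos_iff hχ).2 (by rw [completed_eq_mul hχ h0, h, mul_zero]), h0, h1⟩

/-- All zeros strictly left of `s` make `re (ξ'/ξ) s` positive. -/
theorem re_xiLLog_pos_of_left (hp : χ.IsPrimitive) (hχ : χ ≠ 1) {s : ℂ}
    (h : ∀ ρ, completedLFunction χ ρ = 0 → ρ.re < s.re) : 0 < (xiLLog χ s).re := by
  have hs : completedLFunction χ s ≠ 0 := fun h0 => lt_irrefl _ (h s h0)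
  have hsum := hasSum_xiLLog hp hχ hs
  have hnn : ∀ ρ, 0 ≤ realTerm χ s ρ := fun ρ => by
    rw [realTerm, re_inv_sub]
    by_cases hm : lMult χ ρ = 0
    · simp [hm]
    · have := h ρ (mem_strip_of_mult hp hχ hm).1
      exact mul_nonneg (Nat.cast_nonneg _) (div_nonneg (by linarith) (normSq_nonneg _))
  obtain ⟨ρ₀, hm, -, -⟩ := exists_mult_pos hp hχ
  have hz := h ρ₀ ((lMult_pos_iff hχ).1 hm)
  have hpos : 0 < realTerm χ s ρ₀ := by
    rw [realTerm, re_inv_sub]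
    refine mul_pos (Nat.cast_pos.2 hm) (div_pos (by linarith) (normSq_pos.2 ?_))
    exact sub_ne_zero.2 fun e => lt_irrefl _ (e ▸ hz)
  exact hpos.trans_le (le_hasSum hsum ρ₀ fun ρ _ => hnn ρ)

/-- All zeros strictly right of `s` make it negative. -/
theorem re_xiLLog_neg_of_right (hp : χ.IsPrimitive) (hχ : χ ≠ 1) {s : ℂ}
    (h : ∀ ρ, completedLFunction χ ρ = 0 → s.re < ρ.re) : (xiLLog χ s).re < 0 := by
  have hs : completedLFunction χ s ≠ 0 := fun h0 => lt_irrefl _ (h s h0)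
  have hsum := (hasSum_xiLLog hp hχ hs).neg
  have hnn : ∀ ρ, 0 ≤ -realTerm χ s ρ := fun ρ => by
    rw [realTerm, re_inv_sub, ← mul_neg, ← neg_div, neg_sub]
    by_cases hm : lMult χ ρ = 0
    · simp [hm]
    · have := h ρ (mem_strip_of_mult hp hχ hm).1
      exact mul_nonneg (Nat.cast_nonneg _) (div_nonneg (by linarith) (normSq_nonneg _))
  obtain ⟨ρ₀, hm, -, -⟩ := exists_mult_pos hp hχ
  have hz := h ρ₀ ((lMult_pos_iff hχ).1 hm)
  have hpos : 0 < -realTerm χ s ρ₀ := by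
    rw [realTerm, re_inv_sub, ← mul_neg, ← neg_div, neg_sub]
    refine mul_pos (Nat.cast_pos.2 hm) (div_pos (by linarith) (normSq_pos.2 ?_))
    exact sub_ne_zero.2 fun e => lt_irrefl _ (e ▸ hz)
  have := hpos.trans_le (le_hasSum hsum ρ₀ fun ρ _ => hnn ρ)
  linarith

/-- The Riemann hypothesis for `L (s, χ)`. -/
def GRHFor (χ : DirichletCharacter ℂ q) : Prop :=
  ∀ ρ : ℂ, LFunction χ ρ = 0 → 0 < ρ.re → ρ.re < 1 → ρ.re = 1 / 2

/-- `re (ξ'/ξ)` is positive to the right of the critical line. -/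
def RePositiveFor (χ : DirichletCharacter ℂ q) : Prop :=
  ∀ s : ℂ, 1 / 2 < s.re → 0 < (xiLLog χ s).re

/-- `|ξ|` increases to the right of `a`. -/
def NormIncreasingFrom (χ : DirichletCharacter ℂ q) (a : ℝ) : Prop :=
  ∀ t : ℝ, StrictMonoOn (fun σ : ℝ => ‖xiL χ ((σ : ℂ) + t * I)‖) (Ici a)

theorem re_eq_half_of_grh (hp : χ.IsPrimitive) (hχ : χ ≠ 1) (h : GRHFor χ) {ρ : ℂ}
    (hρ : completedLFunction χ ρ = 0) : ρ.re = 1 / 2 := by
  obtain ⟨h0, h1⟩ := completed_zero_strip hp hχ hρ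
  rw [completed_eq_mul hχ h0, mul_eq_zero] at hρ
  exact h ρ (hρ.resolve_left (gammaShift_ne_zero h0)) h0 h1

theorem rePositive_of_grh (hp : χ.IsPrimitive) (hχ : χ ≠ 1) (h : GRHFor χ) : RePositiveFor χ :=
  fun _ hs => re_xiLLog_pos_of_left hp hχ fun _ hρ => (re_eq_half_of_grh hp hχ h hρ).trans_lt hs

theorem strictMonoOn_norm_xiL (hχ : χ ≠ 1) {a t : ℝ}
    (h : ∀ σ : ℝ, a < σ → 0 < (xiLLog χ ((σ : ℂ) + t * I)).re) :
    StrictMonoOn (fun σ : ℝ => ‖xiL χ ((σ : ℂ) + t * I)‖) (Ici a) := by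
  obtain ⟨g, hg⟩ : ∃ g : ℝ → ℝ, g = fun σ : ℝ => ‖xiL χ ((σ : ℂ) + t * I)‖ ^ 2 := ⟨_, rfl⟩
  have hmono : StrictMonoOn g (Ici a) := by
    have hd : ∀ σ : ℝ, HasDerivAt (fun σ : ℝ => xiL χ ((σ : ℂ) + t * I))
        (deriv (xiL χ) ((σ : ℂ) + t * I)) σ := fun σ => by
      have hin : HasDerivAt (fun σ : ℂ => σ + t * I) 1 σ := (hasDerivAt_id' _).add_const _
      simpa using ((differentiable_xiL hχ _).hasDerivAt.comp (σ : ℂ) hin).comp_ofReal
    have hgd : ∀ σ : ℝ, HasDerivAt g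
        (2 * (deriv (xiL χ) ((σ : ℂ) + t * I) * conj (xiL χ ((σ : ℂ) + t * I))).re) σ :=
      fun σ => by
      have h2 := (hd σ).norm_sq
      rw [hg]
      refine h2.congr_deriv ?_
      rw [Complex.inner]
    refine strictMonoOn_of_hasDerivWithinAt_pos (convex_Ici _)
      (fun σ _ => (hgd σ).continuousAt.continuousWithinAt)
      (fun σ _ => (hgd σ).hasDerivWithinAt) fun σ hσ => ?_
    rw [interior_Ici] at hσ
    have hp' := h σ hσ
    rw [xiLLog, div_re, ← add_div] at hp'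
    have hden : 0 < normSq (xiL χ ((σ : ℂ) + t * I)) :=
      normSq_pos.2 fun e => by rw [e] at hp'; simp at hp'
    have := mul_pos hp' hden
    rw [div_mul_cancel₀ _ hden.ne'] at this
    simp only [mul_re, conj_re, conj_im]
    linarith
  intro x hx y hy hxy
  have := hmono hx hy hxy
  rw [hg] at this
  exact lt_of_pow_lt_pow_left₀ 2 (norm_nonneg _) this

/-- **Unconditionally `|ξ|` increases on `re s ≥ 1`.** -/
theorem normIncreasing_one (hp : χ.IsPrimitive) (hχ : χ ≠ 1) : NormIncreasingFrom χ 1 :=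
  fun _ => strictMonoOn_norm_xiL hχ fun _ hσ => re_xiLLog_pos_of_left hp hχ fun _ hρ =>
    ((completed_zero_strip hp hχ hρ).2).trans (by simpa using hσ)

theorem normIncreasing_half_of_rePositive (hχ : χ ≠ 1) (h : RePositiveFor χ) :
    NormIncreasingFrom χ (1 / 2) :=
  fun _ => strictMonoOn_norm_xiL hχ fun _ hσ => h _ (by simpa using hσ)

theorem grh_of_normIncreasing (hp : χ.IsPrimitive) (hχ : χ ≠ 1)
    (h : NormIncreasingFrom χ (1 / 2)) : GRHFor χ := by
  have key : ∀ ρ, completedLFunction χ ρ = 0 → ρ.re ≤ 1 / 2 := fun ρ hρ =>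
      le_of_not_gt fun hlt => by
    have h1 := h ρ.im (self_mem_Ici (a := (1 / 2 : ℝ))) (mem_Ici.2 hlt.le) hlt
    simp only [re_add_im, (xiL_eq_zero_iff χ ρ).2 hρ, norm_zero] at h1
    exact absurd h1 (not_lt.2 (norm_nonneg _))
  intro ρ hL h0 h1
  have hρ : completedLFunction χ ρ = 0 := by rw [completed_eq_mul hχ h0, hL, mul_zero]
  have h2 := key (1 - conj ρ) (by rw [completed_reflect hp hχ, hρ, map_zero, mul_zero])
  rw [sub_re, one_re, conj_re] at h2
  linarith [key ρ hρ]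

/-- **The zeros of `ξ'` lie in the open strip.** -/
theorem deriv_xiL_zero_strip (hp : χ.IsPrimitive) (hχ : χ ≠ 1) {s : ℂ}
    (h : deriv (xiL χ) s = 0) : 0 < s.re ∧ s.re < 1 := by
  have hz : (xiLLog χ s).re = 0 := by rw [xiLLog, h, zero_div, zero_re]
  constructor <;> by_contra hc
  · exact (re_xiLLog_neg_of_right hp hχ fun ρ hρ =>
      (not_lt.1 hc).trans_lt (completed_zero_strip hp hχ hρ).1).ne hz
  · exact (re_xiLLog_pos_of_left hp hχ fun ρ hρ =>
      ((completed_zero_strip hp hχ hρ).2).trans_le (not_lt.1 hc)).ne' hz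

/-- **Under the Riemann hypothesis they lie on the line.** -/
theorem deriv_xiL_zero_line (hp : χ.IsPrimitive) (hχ : χ ≠ 1) (hG : GRHFor χ) {s : ℂ}
    (h : deriv (xiL χ) s = 0) : s.re = 1 / 2 := by
  have hz : (xiLLog χ s).re = 0 := by rw [xiLLog, h, zero_div, zero_re]
  rcases lt_trichotomy s.re (1 / 2) with hc | hc | hc
  · exact absurd hz (re_xiLLog_neg_of_right hp hχ fun ρ hρ =>
      hc.trans_le (re_eq_half_of_grh hp hχ hG hρ).ge).ne
  · exact hc
  · exact absurd hz (rePositive_of_grh hp hχ hG s hc).ne'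

end FA.DirichletHadamard

end
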