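import Fermat.Agent.DirichletHadamard.Partial
import Fermat.Agent.XiProduct.Product

/-!
# Hadamard's product for `Λ (s, χ)`

`Λ s = Λ 0 · exp (B s) · ∏ ((1 - s/ρ) exp (s/ρ)) ^ m` with `B = Λ'/Λ 0`: both sides are entire,
agree at `0` and have the same logarithmic derivative near `0`.
-/

set_option autoImplicit false

noncomputable section

namespace FA.DirichletHadamard

open Complex Filter Metric Set Topology
open DirichletCharacter (completedLFunction)
open FA.DirichletZeroCount FA.DirichletLandau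

variable {q : ℕ} [NeZero q] {χ : DirichletCharacter ℂ q}

/-- The zeros of `Λ (s, χ)`. -/
abbrev LZero (χ : DirichletCharacter ℂ q) : Type := {ρ : ℂ // lMult χ ρ ≠ 0}

/-- `((1 - s/ρ) exp (s/ρ)) ^ m`. -/
def zeroFactor (χ : DirichletCharacter ℂ q) (ρ : LZero χ) (s : ℂ) : ℂ :=
  ((1 - s / (ρ : ℂ)) * cexp (s / (ρ : ℂ))) ^ lMult χ (ρ : ℂ)

theorem lzero_ne_zero (hp : χ.IsPrimitive) (hχ : χ ≠ 1) (ρ : LZero χ) : (ρ : ℂ) ≠ 0 := fun h => by
  have := (mem_strip_of_mult hp hχ ρ.2).2.1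
  rw [h] at this
  simp at this

theorem norm_weier_sub_one_le {z : ℂ} (hz : ‖z‖ ≤ 1) :
    ‖(1 - z) * cexp z - 1‖ ≤ 3 * ‖z‖ ^ 2 := by
  obtain ⟨r, hr⟩ : ∃ r, r = cexp z - 1 - z := ⟨_, rfl⟩
  have hrb : ‖r‖ ≤ ‖z‖ ^ 2 := hr ▸ Complex.norm_exp_sub_one_sub_id_le hz
  rw [show (1 - z) * cexp z - 1 = -z ^ 2 + (1 - z) * r by rw [hr]; ring]
  refine (norm_add_le _ _).trans ?_
  rw [norm_neg, norm_pow, norm_mul]
  have h1 : ‖1 - z‖ ≤ 2 := (norm_sub_le _ _).trans (by rw [norm_one]; linarith)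
  nlinarith [mul_le_mul h1 hrb (norm_nonneg _) zero_le_two]

/-- The majorant on the ball of radius `R`. -/
def productMajorant (χ : DirichletCharacter ℂ q) (R : ℝ) (ρ : LZero χ) : ℝ :=
  24 * R ^ 2 * sparse χ (ρ : ℂ)

theorem summable_productMajorant (hp : χ.IsPrimitive) (hχ : χ ≠ 1) (R : ℝ) :
    Summable (productMajorant χ R) :=
  ((summable_sparse hp hχ).comp_injective Subtype.val_injective).mul_left _

theorem eventually_norm_zeroFactor_le (hp : χ.IsPrimitive) (hχ : χ ≠ 1) (R : ℝ) :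
    ∀ᶠ ρ in cofinite, ∀ s ∈ ball (0 : ℂ) R, ‖zeroFactor χ ρ s - 1‖ ≤ productMajorant χ R ρ := by
  have h1 : ∀ᶠ ρ : LZero χ in cofinite, |R| + 1 < |(ρ : ℂ).im| := by
    rw [Filter.eventually_cofinite]
    refine ((finite_low_zeros hp hχ (|R| + 1)).preimage Subtype.val_injective.injOn).subset
      fun ρ hρ => ?_
    exact ⟨ρ.2, not_lt.1 hρ⟩
  filter_upwards [h1, (summable_productMajorant hp hχ R).tendsto_cofinite_zero.eventually_le_const
    one_half_pos] with ρ hbig hsmall s hs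
  rw [mem_ball_zero_iff] at hs
  obtain ⟨z, hz⟩ : ∃ z : ℂ, z = s / (ρ : ℂ) := ⟨_, rfl⟩
  have hR : 0 ≤ R := (norm_nonneg s).trans hs.le
  have hi1 : 1 ≤ |(ρ : ℂ).im| := by linarith [abs_nonneg R]
  have hzn : ‖z‖ ≤ R / |(ρ : ℂ).im| := by
    rw [hz, norm_div]
    exact div_le_div₀ hR hs.le (by linarith) (abs_im_le_norm _)
  have hz1 : ‖z‖ ≤ 1 := hzn.trans (by
    rw [div_le_one (by linarith)]
    linarith [le_abs_self R])
  have hsq : 3 * ‖z‖ ^ 2 ≤ 12 * R ^ 2 * (1 / (1 + |(ρ : ℂ).im|) ^ 2) := by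
    refine (mul_le_mul_of_nonneg_left (pow_le_pow_left₀ (norm_nonneg _) hzn 2)
      (by norm_num)).trans ?_
    rw [div_pow, mul_one_div, mul_div_assoc',
      div_le_div_iff₀ (pow_pos (by linarith) 2) (by positivity)]
    nlinarith [mul_nonneg (sq_nonneg R) (mul_nonneg (show 0 ≤ |(ρ : ℂ).im| - 1 by linarith)
      (show 0 ≤ 3 * |(ρ : ℂ).im| + 1 by positivity))]
  obtain ⟨x, hx⟩ : ∃ x : ℂ, x = (1 - z) * cexp z - 1 := ⟨_, rfl⟩
  have hm : (lMult χ (ρ : ℂ) : ℝ) * ‖x‖ ≤ productMajorant χ R ρ / 2 := by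
    refine (mul_le_mul_of_nonneg_left ((hx ▸ norm_weier_sub_one_le hz1).trans hsq)
      (Nat.cast_nonneg _)).trans (le_of_eq ?_)
    rw [productMajorant, sparse]
    ring
  have h2 := FA.XiProduct.norm_pow_sub_one_le (hm.trans (by linarith) :
    (lMult χ (ρ : ℂ) : ℝ) * ‖x‖ ≤ 1 / 2)
  rw [zeroFactor, ← hz, show (1 - z) * cexp z = 1 + x by rw [hx]; ring]
  linarith

theorem differentiable_zeroFactor (ρ : LZero χ) : Differentiable ℂ (zeroFactor χ ρ) := by
  unfold zeroFactor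
  fun_prop

theorem hasProdLocallyUniformlyOn_zeroFactor (hp : χ.IsPrimitive) (hχ : χ ≠ 1) (R : ℝ) :
    HasProdLocallyUniformlyOn (zeroFactor χ) (fun s => ∏' ρ, zeroFactor χ ρ s) (ball 0 R) := by
  have h := Summable.hasProdLocallyUniformlyOn_one_add (f := fun ρ s => zeroFactor χ ρ s - 1)
    (isOpen_ball : IsOpen (ball (0 : ℂ) R)) (summable_productMajorant hp hχ R)
    (eventually_norm_zeroFactor_le hp hχ R)
    fun ρ => ((differentiable_zeroFactor ρ).continuous.sub continuous_const).continuousOn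
  simpa using h

theorem differentiable_zeroProd (hp : χ.IsPrimitive) (hχ : χ ≠ 1) :
    Differentiable ℂ fun s => ∏' ρ, zeroFactor χ ρ s := fun s => by
  have h := hasProdLocallyUniformlyOn_zeroFactor hp hχ (‖s‖ + 1)
  rw [hasProdLocallyUniformlyOn_iff_tendstoLocallyUniformlyOn] at h
  exact (h.differentiableOn (.of_forall fun F => by
    simpa [Finset.prod_fn] using (Differentiable.fun_finsetProd fun ρ _ =>
      differentiable_zeroFactor ρ).differentiableOn) isOpen_ball).differentiableAt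
      (isOpen_ball.mem_nhds (mem_ball_zero_iff.2 (lt_add_one _)))

theorem logDeriv_zeroFactor (hp : χ.IsPrimitive) (hχ : χ ≠ 1) {s : ℂ}
    (hs : completedLFunction χ s ≠ 0) (ρ : LZero χ) :
    zeroFactor χ ρ s ≠ 0 ∧ logDeriv (zeroFactor χ ρ) s = pTerm χ s ρ := by
  have hρ0 := lzero_ne_zero hp hχ ρ
  have hsρ : s - (ρ : ℂ) ≠ 0 :=
    sub_ne_zero.2 fun e => hs (e ▸ (mem_strip_of_mult hp hχ ρ.2).1)
  have hρs : (ρ : ℂ) - s ≠ 0 := sub_ne_zero.2 (sub_ne_zero.1 hsρ).symm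
  have h1 : 1 - s / (ρ : ℂ) ≠ 0 := by
    rw [one_sub_div hρ0]
    exact div_ne_zero hρs hρ0
  have hd := (((hasDerivAt_id' s).div_const (ρ : ℂ)).const_sub 1).mul
    ((hasDerivAt_id' s).div_const (ρ : ℂ)).cexp
  have hne : (1 - s / (ρ : ℂ)) * cexp (s / (ρ : ℂ)) ≠ 0 := mul_ne_zero h1 (Complex.exp_ne_zero _)
  refine ⟨by rw [zeroFactor]; exact pow_ne_zero _ hne, ?_⟩
  unfold zeroFactor
  have hd' := hd.deriv
  have hdiff : DifferentiableAt ℂ (fun x => (1 - x / (ρ : ℂ)) * cexp (x / (ρ : ℂ))) s :=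
    hd.differentiableAt
  rw [logDeriv_fun_pow hdiff, logDeriv_apply]
  simp only [Pi.mul_def] at hd'
  rw [hd', pTerm]
  congr 1
  rw [one_sub_div hρ0]
  field_simp
  ring

theorem hasSum_logDeriv_zeroFactor (hp : χ.IsPrimitive) (hχ : χ ≠ 1) {s : ℂ}
    (hs : completedLFunction χ s ≠ 0) :
    HasSum (fun ρ : LZero χ => logDeriv (zeroFactor χ ρ) s) (lLog χ s - lLog χ 0) := by
  refine ((hasSum_subtype_iff_of_support_subset (f := pTerm χ s)
    (s := {ρ | lMult χ ρ ≠ 0}) fun ρ hρ => ?_).2 (hasSum_pTerm hp hχ hs)).congr_fun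
      fun ρ => (logDeriv_zeroFactor hp hχ hs ρ).2
  simp only [Function.mem_support] at hρ
  intro h
  exact hρ (by simp [pTerm, h])

/-- **Hadamard's product.** -/
theorem completed_eq_product (hp : χ.IsPrimitive) (hχ : χ ≠ 1) (s : ℂ) :
    completedLFunction χ s =
      completedLFunction χ 0 * cexp (lLog χ 0 * s) * ∏' ρ, zeroFactor χ ρ s := by
  have hdL := DirichletCharacter.differentiable_completedLFunction hχ
  obtain ⟨P, hP⟩ : ∃ P : ℂ → ℂ, P = fun s => ∏' ρ, zeroFactor χ ρ s := ⟨_, rfl⟩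
  have hPd : Differentiable ℂ P := hP ▸ differentiable_zeroProd hp hχ
  have hP0 : P 0 = 1 := by simp [hP, zeroFactor]
  obtain ⟨G, hG⟩ : ∃ G : ℂ → ℂ, G = fun z => cexp (lLog χ 0 * z) * P z := ⟨_, rfl⟩
  have hGd : Differentiable ℂ G := by
    rw [hG]
    exact (differentiable_id.const_mul _).cexp.mul hPd
  have hG0 : G 0 = 1 := by simp [hG, hP0]
  obtain ⟨r, hr, hr'⟩ : ∃ r > 0, ∀ z : ℂ, ‖z‖ < r → P z ≠ 0 ∧ completedLFunction χ z ≠ 0 := by
    have h1 : ∀ᶠ z in 𝓝 (0 : ℂ), P z ≠ 0 ∧ completedLFunction χ z ≠ 0 :=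
      (hPd.continuous.continuousAt.eventually_ne (by rw [hP0]; exact one_ne_zero)).and
        (hdL.continuous.continuousAt.eventually_ne (completed_zero_ne hp hχ))
    obtain ⟨r, hr, h⟩ := Metric.eventually_nhds_iff.1 h1
    exact ⟨r, hr, fun z hz => h (by rwa [dist_zero_right])⟩
  have hGne : ∀ z, ‖z‖ < r → G z ≠ 0 := fun z hz => by
    rw [hG]
    exact mul_ne_zero (Complex.exp_ne_zero _) (hr' z hz).1
  have hld : ∀ z : ℂ, ‖z‖ < r → logDeriv G z = lLog χ z := fun z hz => by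
    obtain ⟨hPz, hxz⟩ := hr' z hz
    have h := logDeriv_tprod_eq_tsum (f := zeroFactor χ) (s := ball (0 : ℂ) (‖z‖ + 1)) (x := z)
      isOpen_ball (mem_ball_zero_iff.2 (lt_add_one _))
      (fun ρ => (logDeriv_zeroFactor hp hχ hxz ρ).1)
      (fun ρ => (differentiable_zeroFactor ρ).differentiableOn)
      (hasSum_logDeriv_zeroFactor hp hχ hxz).summable
      (hasProdLocallyUniformlyOn_zeroFactor hp hχ _).multipliableLocallyUniformlyOn
      (by rw [hP] at hPz; exact hPz)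
    rw [← hP, (hasSum_logDeriv_zeroFactor hp hχ hxz).tsum_eq] at h
    have he : logDeriv (fun w => cexp (lLog χ 0 * w)) z = lLog χ 0 := by
      rw [logDeriv_apply, ((hasDerivAt_id' z).const_mul _).cexp.deriv]
      field_simp
    rw [hG, logDeriv_mul (f := fun w => cexp (lLog χ 0 * w)) (g := P) z (Complex.exp_ne_zero _) hPz
      ((differentiable_id.const_mul _).cexp z) (hPd z), he, h]
    ring
  obtain ⟨Q, hQ⟩ : ∃ Q : ℂ → ℂ, Q = fun z => completedLFunction χ z / G z := ⟨_, rfl⟩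
  have hQ0 : ∀ z ∈ ball (0 : ℂ) r, HasDerivAt Q 0 z := fun z hz => by
    have hz' := mem_ball_zero_iff.1 hz
    have h := hld z hz'
    rw [logDeriv_apply, lLog, div_eq_div_iff (hGne z hz') (hr' z hz').2] at h
    have hd := (hdL z).hasDerivAt.div (hGd z).hasDerivAt (hGne z hz')
    rw [hQ]
    refine hd.congr_deriv ?_
    rw [div_eq_zero_iff]
    exact Or.inl (by linear_combination -h)
  have hconst : ∀ z ∈ ball (0 : ℂ) r, Q z = Q 0 := fun z hz =>
    (convex_ball (0 : ℂ) r).is_const_of_fderivWithin_eq_zero (𝕜 := ℂ)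
      (fun w hw => (hQ0 w hw).differentiableAt.differentiableWithinAt) (fun w hw => by
        rw [fderivWithin_of_isOpen isOpen_ball hw]
        exact ((hQ0 w hw).hasFDerivAt).fderiv.trans (by simp)) hz (mem_ball_self hr)
  have hloc : completedLFunction χ =ᶠ[𝓝 0] fun z => completedLFunction χ 0 * G z := by
    filter_upwards [ball_mem_nhds (0 : ℂ) hr] with z hz
    have h1 := hconst z hz
    simp only [hQ, hG0, div_one] at h1
    rwa [div_eq_iff (hGne z (mem_ball_zero_iff.1 hz))] at h1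
  have := AnalyticOnNhd.eqOn_of_preconnected_of_eventuallyEq (U := univ)
    (fun z _ => hdL.analyticAt z) (fun z _ => (hGd.const_mul _).analyticAt z) isPreconnected_univ
    (mem_univ (0 : ℂ)) hloc (mem_univ s)
  rw [this, hG, hP]
  ring

theorem hasProd_zeroFactor (hp : χ.IsPrimitive) (hχ : χ ≠ 1) (s : ℂ) :
    HasProd (fun ρ => zeroFactor χ ρ s)
      (completedLFunction χ s / (completedLFunction χ 0 * cexp (lLog χ 0 * s))) := by
  have h := (hasProdLocallyUniformlyOn_zeroFactor hp hχ (‖s‖ + 1)).hasProd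
    (mem_ball_zero_iff.2 (lt_add_one _))
  rwa [completed_eq_product hp hχ s, mul_div_cancel_left₀ _
    (mul_ne_zero (completed_zero_ne hp hχ) (Complex.exp_ne_zero _))]

end FA.DirichletHadamard

end
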