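import Fermat.Agent.DirichletHadamard.Zeros
import Fermat.Agent.ExplicitFormula.Digamma

/-!
# `Λ'/Λ` on large boxes

Away from the strip `Λ'/Λ` grows like a logarithm, inside it is `O (log² T)` on suitable heights.
-/

set_option autoImplicit false

noncomputable section

namespace FA.DirichletHadamard

open Complex Filter Topology Set
open DirichletCharacter (LFunction completedLFunction)
open FA.DirichletZeroCount FA.DirichletLandau
open FA.ExplicitFormula (boxEdges)
open scoped Real ComplexConjugate ArithmeticFunction.vonMangoldt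

variable {q : ℕ} [NeZero q] {χ : DirichletCharacter ℂ q}

theorem log_le_four_rpow {x : ℝ} (hx : 0 < x) : Real.log x ≤ 4 * x ^ (1 / 4 : ℝ) := by
  have h := Real.log_le_sub_one_of_pos (Real.rpow_pos_of_pos hx (1 / 4 : ℝ))
  rw [Real.log_rpow hx] at h
  linarith

theorem exists_norm_lLog_far (χ : DirichletCharacter ℂ q) (hχ : χ ≠ 1) :
    ∃ C, 0 ≤ C ∧ ∀ u : ℂ, 2 ≤ u.re →
      completedLFunction χ u ≠ 0 ∧ ‖lLog χ u‖ ≤ C * (‖u‖ + 3) ^ (1 / 4 : ℝ) := by
  obtain ⟨A, hA⟩ : ∃ A, A = ∑' n, ‖LSeries.term (lamChar χ) ((2 : ℝ) : ℂ) n‖ := ⟨_, rfl⟩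
  have hA0 : 0 ≤ A := hA ▸ tsum_nonneg fun n => norm_nonneg _
  refine ⟨A + 19, by positivity, fun u hu => ⟨completed_ne_zero_right hχ (by linarith), ?_⟩⟩
  obtain ⟨a0, a1⟩ := gShift_mem χ
  have hre : 0 < u.re := by linarith
  have hL : LFunction χ u ≠ 0 :=
    DirichletCharacter.LFunction_ne_zero_of_one_le_re χ (Or.inl hχ) (by linarith)
  have h1 : ‖deriv (LFunction χ) u / LFunction χ u‖ ≤ A := by
    rw [← norm_neg, ← neg_div, DirichletCharacter.deriv_LFunction_eq_deriv_LSeries _ (by linarith),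
      DirichletCharacter.LFunction_eq_LSeries _ (by linarith),
      ← DirichletCharacter.LSeries_twist_vonMangoldt_eq χ (by linarith), hA]
    have hs : Summable fun n => ‖LSeries.term (lamChar χ) u n‖ :=
      Summable.norm (DirichletCharacter.LSeriesSummable_twist_vonMangoldt χ (s := u) (by linarith))
    exact (norm_tsum_le_tsum_norm hs).trans (hs.tsum_le_tsum
      (fun n => LSeries.norm_term_le_of_re_le_re _ (by simpa using hu) n)
      (summable_term_lamChar χ))
  obtain ⟨w, hw⟩ : ∃ w : ℂ, w = u + gShift χ := ⟨_, rfl⟩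
  have hwre : 2 ≤ w.re := by simp [hw]; linarith
  obtain ⟨P, hP⟩ : ∃ P, P = (‖u‖ + 3) ^ (1 / 4 : ℝ) := ⟨_, rfl⟩
  have hP1 : 1 ≤ P := hP ▸ Real.one_le_rpow (by linarith [norm_nonneg u]) (by norm_num)
  have h2 : ‖FA.Levinson.gammaLog w‖ ≤ 13 + 6 * P := by
    rw [FA.Levinson.gammaLog_eq_digamma (by linarith)]
    have a := FA.ExplicitFormula.norm_digamma_le (z := w / 2) (by simp; linarith)
    have b : Real.log (‖w / 2‖ + 2) ≤ Real.log (‖u‖ + 3) := by
      refine Real.log_le_log (by positivity) ?_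
      rw [norm_div, Complex.norm_two, hw]
      have := norm_add_le u (gShift χ : ℂ)
      rw [Complex.norm_real, Real.norm_of_nonneg a0] at this
      linarith [norm_nonneg u]
    have c := log_le_four_rpow (show 0 < ‖u‖ + 3 by positivity)
    have d : Real.log π ≤ 3 :=
      (Real.log_le_sub_one_of_pos Real.pi_pos).trans (by linarith [Real.pi_le_four])
    have e : 0 ≤ Real.log π := Real.log_nonneg (by linarith [Real.pi_gt_three])
    refine (norm_add_le _ _).trans ?_
    rw [norm_div, norm_div, norm_neg, Complex.norm_real, Real.norm_of_nonneg e, Complex.norm_two]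
    rw [← hP] at c
    linarith
  rw [← hP, lLog_eq_add hχ hre hL, ← hw]
  refine (norm_add_le _ _).trans ((add_le_add h2 h1).trans ?_)
  nlinarith

/-- **The bound on the boundary of `[1 - t, t] × [-t, t]`** at a suitable height in `[T, T + 1]`. -/
theorem exists_box_height (hp : χ.IsPrimitive) (hχ : χ ≠ 1) :
    ∃ M, 0 ≤ M ∧ ∀ T : ℝ, 4 ≤ T → ∃ t, T ≤ t ∧ t ≤ T + 1 ∧
      (∀ ρ, completedLFunction χ ρ = 0 → |ρ.im| ≠ t) ∧
      ∀ u ∈ boxEdges (1 - t) t t, ‖lLog χ u‖ ≤ M * √t := by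
  obtain ⟨K, hK, hhor⟩ := exists_norm_lLog_edge
  obtain ⟨C, hC, hheight⟩ := exists_spaced_height
  obtain ⟨F, hF, hfar⟩ := exists_norm_lLog_far χ hχ
  obtain ⟨A, hA⟩ : ∃ A, A = Real.log q + 4 := ⟨_, rfl⟩
  have hlq := Real.log_natCast_nonneg q
  refine ⟨K * C * (4 * A ^ 2) + 2 * F + Real.log q, by positivity, fun T hT => ?_⟩
  obtain ⟨t, δ, ht1, ht2, hδ, hδ1, hinv, hgap⟩ := hheight q χ hp hχ T (by linarith)
  have ht0 : 0 < t := by linarith
  refine ⟨t, ht1, ht2, fun ρ hρ h => ?_, fun u hu => ?_⟩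
  · have := hgap ρ hρ
    rw [h, sub_self, abs_zero] at this
    linarith
  obtain ⟨hre, him, hside⟩ := hu
  rw [uIcc_of_le (by linarith)] at hre
  rw [uIcc_of_le (by linarith)] at him
  have hs1 : 1 ≤ √t := Real.one_le_sqrt.2 (by linarith)
  have hfar' : ∀ w : ℂ, 2 ≤ w.re → ‖w‖ ≤ 3 * t → ‖lLog χ w‖ ≤ 2 * F * √t := fun w hw hn => by
    refine ((hfar w hw).2).trans ?_
    have h1 : (‖w‖ + 3) ^ (1 / 4 : ℝ) ≤ (4 * t) ^ (1 / 4 : ℝ) :=
      Real.rpow_le_rpow (by positivity) (by linarith) (by norm_num)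
    have h2 : (4 * t) ^ (1 / 4 : ℝ) ≤ 2 * √t := by
      calc (4 * t) ^ (1 / 4 : ℝ) ≤ (4 * t) ^ (1 / 2 : ℝ) :=
            Real.rpow_le_rpow_of_exponent_le (by linarith) (by norm_num)
        _ = 2 * √t := by
            rw [← Real.sqrt_eq_rpow, Real.sqrt_mul (by norm_num), show (4 : ℝ) = 2 ^ 2 by norm_num,
              Real.sqrt_sq zero_le_two]
    calc F * (‖w‖ + 3) ^ (1 / 4 : ℝ) ≤ F * (2 * √t) :=
          mul_le_mul_of_nonneg_left (h1.trans h2) hF
      _ = 2 * F * √t := by ring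
  have hbig : 2 * F * √t ≤ (K * C * (4 * A ^ 2) + 2 * F + Real.log q) * √t :=
    mul_le_mul_of_nonneg_right (by nlinarith [mul_nonneg (mul_nonneg hK hC.le) (sq_nonneg A)])
      (by linarith)
  have hnorm : ‖u‖ ≤ 3 * t ∧ ‖1 - conj u‖ ≤ 3 * t := by
    constructor
    · refine (norm_le_abs_re_add_abs_im _).trans ?_
      linarith [abs_le.2 him,
        abs_le.2 (show -t ≤ u.re ∧ u.re ≤ t from ⟨by linarith [hre.1], hre.2⟩)]
    · refine (norm_le_abs_re_add_abs_im _).trans ?_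
      simp only [sub_re, one_re, conj_re, sub_im, one_im, conj_im, zero_sub, neg_neg]
      linarith [abs_le.2 him,
        abs_le.2 (show -(t + 1) ≤ 1 - u.re ∧ 1 - u.re ≤ t + 1 from
          ⟨by linarith [hre.2], by linarith [hre.1]⟩)]
  by_cases hright : 2 ≤ u.re
  · exact (hfar' u hright hnorm.1).trans hbig
  by_cases hleft : u.re ≤ -1
  · obtain ⟨w, hw⟩ : ∃ w : ℂ, w = 1 - conj u := ⟨_, rfl⟩
    have hwre : 2 ≤ w.re := by simp [hw]; linarith
    rw [show u = 1 - conj w by simp [hw],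
      lLog_reflect hp hχ (by linarith) (hfar w hwre).1, norm_neg]
    refine (norm_add_le _ _).trans ?_
    rw [Complex.norm_conj, Complex.norm_real, Real.norm_of_nonneg hlq]
    have := hfar' w hwre (hw ▸ hnorm.2)
    nlinarith [le_mul_of_one_le_right hlq hs1, mul_nonneg (mul_nonneg hK hC.le) (sq_nonneg A)]
  have htop : u.im = t ∨ u.im = -t := by
    rcases hside with h | h | h | h
    · exact Or.inr h
    · exact Or.inl h
    · exfalso; linarith
    · exfalso; linarith
  have h7 := hhor q χ hp hχ t δ ht0.le hδ hδ1 hgap u.im htop u.re ⟨by linarith, by linarith⟩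
  rw [re_add_im] at h7
  refine h7.trans ?_
  have hqT : qLog q T ≤ qLog q t := by
    refine Real.log_le_log (mul_pos (Nat.cast_pos.2 (NeZero.pos q)) (by positivity)) ?_
    rw [abs_of_nonneg (by linarith), abs_of_nonneg ht0.le]
    exact mul_le_mul_of_nonneg_left (by linarith) (Nat.cast_nonneg q)
  have hq4 : qLog q t ≤ A * (2 * t ^ (1 / 4 : ℝ)) := by
    have h := log_le_four_rpow (show 0 < t + 3 by linarith)
    have h1 : (t + 3) ^ (1 / 4 : ℝ) ≤ (16 * t) ^ (1 / 4 : ℝ) :=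
      Real.rpow_le_rpow (by positivity) (by linarith) (by norm_num)
    have h2 : (16 * t) ^ (1 / 4 : ℝ) = 2 * t ^ (1 / 4 : ℝ) := by
      rw [Real.mul_rpow (by norm_num) ht0.le, show (16 : ℝ) = 2 ^ (4 : ℕ) by norm_num,
        ← Real.rpow_natCast, ← Real.rpow_mul zero_le_two]
      norm_num
    have h3 : 1 ≤ t ^ (1 / 4 : ℝ) := Real.one_le_rpow (by linarith) (by norm_num)
    rw [qLog, abs_of_nonneg ht0.le, Real.log_mul (Nat.cast_ne_zero.2 (NeZero.ne q)) (by linarith),
      hA]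
    nlinarith [h1.trans h2.le, le_mul_of_one_le_right hlq h3]
  have hq0 : 0 ≤ qLog q t := zero_le_one.trans (qLog_ge q t).1
  calc K * qLog q t / δ = K * qLog q t * (1 / δ) := by ring
    _ ≤ K * qLog q t * (C * qLog q t) := mul_le_mul_of_nonneg_left
        (hinv.trans (mul_le_mul_of_nonneg_left hqT hC.le)) (mul_nonneg hK hq0)
    _ = K * C * qLog q t ^ 2 := by ring
    _ ≤ K * C * (A * (2 * t ^ (1 / 4 : ℝ))) ^ 2 :=
        mul_le_mul_of_nonneg_left (pow_le_pow_left₀ hq0 hq4 2) (mul_nonneg hK hC.le)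
    _ = K * C * (4 * A ^ 2) * √t := by
        rw [mul_pow, mul_pow, ← Real.rpow_natCast (t ^ (1 / 4 : ℝ)), ← Real.rpow_mul ht0.le,
          Real.sqrt_eq_rpow]
        norm_num
        ring
    _ ≤ _ := mul_le_mul_of_nonneg_right (by linarith) (by linarith)

end FA.DirichletHadamard

end
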