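import Fermat.Agent.DirichletHadamard.Edges
import Fermat.Agent.LiCriterion.Partial

/-!
# The partial fractions of `Λ'/Λ`

`Λ'/Λ s - Λ'/Λ 0 = ∑ m (1 / (s - ρ) + 1 / ρ)`: the integral of `Λ'/Λ u · s / (u (u - s))` round
`[1 - t, t] × [-t, t]` tends to `0` along heights away from the ordinates.
-/

set_option autoImplicit false

noncomputable section

namespace FA.DirichletHadamard

open Complex Filter Topology Set
open DirichletCharacter (completedLFunction)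
open FA.DirichletZeroCount FA.DirichletLandau
open FA.ExplicitFormula (boxInt boxEdges boxInt_congr boxInt_add boxInt_sub boxInt_residue
  boxInt_multiset_sum interior_not_edge)
open FA.RiemannMangoldt (rootProd rootProd_ne_zero hasDerivAt_rootProd)
open scoped Real ComplexConjugate

variable {q : ℕ} [NeZero q] {χ : DirichletCharacter ℂ q}

theorem completed_zero_ne (hp : χ.IsPrimitive) (hχ : χ ≠ 1) : completedLFunction χ 0 ≠ 0 :=
  fun h => by
    have := (completed_zero_strip hp hχ h).1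
    simp at this

/-- `m (1 / (s - ρ) + 1 / ρ)`. -/
def pTerm (χ : DirichletCharacter ℂ q) (s ρ : ℂ) : ℂ := (lMult χ ρ : ℂ) * ((s - ρ)⁻¹ + ρ⁻¹)

theorem lLog_factor {Z : Multiset ℂ} {h : ℂ → ℂ} (hh : Differentiable ℂ h)
    (he : ∀ z, completedLFunction χ z = rootProd Z z * h z) {u : ℂ} (hu : ∀ ρ ∈ Z, u ≠ ρ)
    (hhu : h u ≠ 0) :
    lLog χ u = (Z.map fun ρ => (u - ρ)⁻¹).sum + deriv h u / h u := by
  have hd' : deriv (completedLFunction χ) u =
      rootProd Z u * (Z.map fun ρ => (u - ρ)⁻¹).sum * h u + rootProd Z u * deriv h u := by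
    rw [show completedLFunction χ = fun w => rootProd Z w * h w from funext he]
    exact ((hasDerivAt_rootProd hu).mul (hh u).hasDerivAt).deriv
  have n1 := rootProd_ne_zero hu
  rw [lLog, hd', he u]
  field_simp

/-- **The residues.** -/
theorem boxInt_pFrac (hp : χ.IsPrimitive) (hχ : χ ≠ 1) {s : ℂ}
    (hxs : completedLFunction χ s ≠ 0) {T : ℝ} (hT : 4 ≤ T) (hsT : 2 * ‖s‖ + 4 ≤ T)
    (hord : ∀ ρ, completedLFunction χ ρ = 0 → |ρ.im| ≠ T) :
    boxInt (fun u => lLog χ u * (s / (u * (u - s)))) (1 - T) T T = 2 * π * I *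
      (lLog χ s - lLog χ 0 - ∑ ρ ∈ zerosUp χ hχ T, pTerm χ s ρ) := by
  classical
  obtain ⟨K, hK⟩ : ∃ K : Set ℂ, K = Icc (1 - T) T ×ℂ Icc (-T) T := ⟨_, rfl⟩
  have hdL := DirichletCharacter.differentiable_completedLFunction hχ
  obtain ⟨Z, h, hh, he, hZK, hne, hcount⟩ := FA.Levinson.exists_compact_factor isOpen_univ
    (hK ▸ isCompact_Icc.reProdIm isCompact_Icc : IsCompact K) (subset_univ _)
    hdL.differentiableOn fun z _ => order_completed_ne_top hχ z
  have hh' : Differentiable ℂ h := fun z => hh.differentiableAt univ_mem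
  have hmemK : ∀ u : ℂ, u.re ∈ Icc (1 - T) T → u.im ∈ Icc (-T) T → u ∈ K := fun u h1 h2 => by
    rw [hK, mem_reProdIm]
    exact ⟨h1, h2⟩
  have hZ0 : ∀ ρ ∈ Z, completedLFunction χ ρ = 0 := fun ρ hρ => by
    rw [he]
    refine mul_eq_zero_of_left ?_ _
    simp only [rootProd, Multiset.prod_eq_zero_iff, Multiset.mem_map]
    exact ⟨ρ, hρ, sub_self ρ⟩
  obtain ⟨U, hU⟩ : ∃ U : Set ℂ, U = {u | h u ≠ 0} := ⟨_, rfl⟩
  have hUo : IsOpen U := hU ▸ isOpen_ne_fun hh'.continuous continuous_const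
  have hbox : ∀ u : ℂ, u.re ∈ Icc (1 - T) T → u.im ∈ Icc (-T) T → u ∈ U :=
    fun u h1 h2 => hU ▸ hne u (hmemK u h1 h2)
  have hHd : DifferentiableOn ℂ (fun u => deriv h u / h u) U := fun u hu => by
    rw [hU] at hu
    exact ((hh'.analyticAt u).deriv.differentiableAt.div (hh' u) hu).differentiableWithinAt
  have hedge : ∀ u ∈ boxEdges (1 - T) T T, u.re ∈ Icc (1 - T) T ∧ u.im ∈ Icc (-T) T :=
    fun u hu => by
    obtain ⟨h1, h2, -⟩ := hu
    rw [uIcc_of_le (by linarith)] at h1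
    rw [uIcc_of_le (by linarith)] at h2
    exact ⟨h1, h2⟩
  have hsn := norm_nonneg s
  have hins : (1 - T < s.re ∧ s.re < T) ∧ |s.im| < T := by
    have h1 := abs_le.1 (abs_re_le_norm s)
    exact ⟨⟨by linarith, by linarith⟩, by linarith [abs_im_le_norm s]⟩
  have hin0 : (1 - T < (0 : ℂ).re ∧ (0 : ℂ).re < T) ∧ |(0 : ℂ).im| < T := by
    refine ⟨⟨?_, ?_⟩, ?_⟩ <;> simp <;> linarith
  have hinZ : ∀ ρ ∈ Z, 1 - T < ρ.re ∧ ρ.re < T := fun ρ hρ => by
    obtain ⟨a, b⟩ := completed_zero_strip hp hχ (hZ0 ρ hρ)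
    exact ⟨by linarith, by linarith⟩
  have h00 := completed_zero_ne hp hχ
  have hρne : ∀ ρ ∈ Z, ρ ≠ s ∧ ρ ≠ 0 := fun ρ hρ =>
    ⟨fun e => hxs (e ▸ hZ0 ρ hρ), fun e => h00 (e ▸ hZ0 ρ hρ)⟩
  obtain ⟨c, hc⟩ : ∃ c : ℂ → ℂ, c = fun a => (Z.map fun ρ => (a - ρ)⁻¹).sum := ⟨_, rfl⟩
  obtain ⟨P, hP⟩ : ∃ P : ℂ → ℂ → ℂ, P = fun a u => (deriv h u / h u + c a) / (u - a) := ⟨_, rfl⟩
  have hPd : ∀ a : ℂ, DifferentiableOn ℂ (fun u => deriv h u / h u + c a) U := fun a =>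
    hHd.add_const _
  have hPc : ∀ a : ℂ, ((1 - T < a.re ∧ a.re < T) ∧ |a.im| < T) →
      ∀ u ∈ boxEdges (1 - T) T T, ContinuousAt (P a) u := fun a ha u hu => by
    obtain ⟨h1, h2⟩ := hedge u hu
    rw [hP]
    exact (((hPd a).differentiableAt (hUo.mem_nhds (hbox u h1 h2))).continuousAt).div
      (continuousAt_id.sub continuousAt_const)
      (sub_ne_zero.2 (interior_not_edge ha.1.1 ha.1.2 ha.2.ne (by linarith) hu))
  have hPval : ∀ a : ℂ, ((1 - T < a.re ∧ a.re < T) ∧ |a.im| < T) →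
      boxInt (P a) (1 - T) T T = 2 * π * I * (deriv h a / h a + c a) := fun a ha => by
    rw [hP]
    exact (boxInt_residue hUo (hPd a) hbox (by linarith) ha.1.1 ha.1.2 ha.2.ne).trans
      (if_pos ha.2)
  obtain ⟨Q, hQ⟩ : ∃ Q : ℂ → ℂ → ℂ,
      Q = fun ρ u => ((ρ - s)⁻¹ - ρ⁻¹) / (u - ρ) := ⟨_, rfl⟩
  have hQc : ∀ ρ ∈ Z, ∀ u ∈ boxEdges (1 - T) T T, ContinuousAt (Q ρ) u := fun ρ hρ u hu => by
    rw [hQ]
    exact continuousAt_const.div (continuousAt_id.sub continuousAt_const)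
      (sub_ne_zero.2 (interior_not_edge (hinZ ρ hρ).1 (hinZ ρ hρ).2 (hord ρ (hZ0 ρ hρ))
        (by linarith) hu))
  obtain ⟨hQsc, hQsum⟩ := boxInt_multiset_sum Z hQc
  have hc2 : ∀ u ∈ boxEdges (1 - T) T T, ContinuousAt (fun u => P s u - P 0 u) u :=
    fun u hu => (hPc s hins u hu).sub (hPc 0 hin0 u hu)
  have hzne : ∀ u ∈ boxEdges (1 - T) T T, ∀ ρ ∈ Z, u ≠ ρ := fun u hu ρ hρ =>
    interior_not_edge (hinZ ρ hρ).1 (hinZ ρ hρ).2 (hord ρ (hZ0 ρ hρ)) (by linarith) hu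
  rw [boxInt_congr (G := fun u => (P s u - P 0 u) + (Z.map fun ρ => Q ρ u).sum) fun u hu => ?_,
    boxInt_add hc2 hQsc, boxInt_sub (hPc s hins) (hPc 0 hin0), hPval s hins, hPval 0 hin0, hQsum]
  · have hmap : (Z.map fun ρ => boxInt (Q ρ) (1 - T) T T) = Z.map fun ρ => -(2 * π * I) *
        (if |ρ.im| < T then (s - ρ)⁻¹ + ρ⁻¹ else 0) := by
      refine Multiset.map_congr rfl fun ρ hρ => ?_
      rw [hQ, boxInt_residue (U := univ) (φ := fun _ => (ρ - s)⁻¹ - ρ⁻¹) isOpen_univ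
        (differentiableOn_const _) (fun _ _ _ => mem_univ _) (by linarith) (hinZ ρ hρ).1
        (hinZ ρ hρ).2 (hord ρ (hZ0 ρ hρ))]
      split_ifs
      · rw [← neg_sub ρ s, inv_neg]
        ring
      · ring
    rw [hmap, Multiset.sum_map_mul_left]
    have hsum : (Z.map fun ρ => if |ρ.im| < T then (s - ρ)⁻¹ + ρ⁻¹ else 0).sum =
        ∑ ρ ∈ zerosUp χ hχ T, pTerm χ s ρ := by
      rw [Finset.sum_multiset_map_count]
      simp only [smul_ite, smul_zero]
      rw [← Finset.sum_filter]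
      have hin : ∀ ρ ∈ zerosUp χ hχ T, completedLFunction χ ρ = 0 ∧ |ρ.im| ≤ T := fun ρ hρ =>
        (mem_lZeros_iff hp hχ).1 ((Set.Finite.mem_toFinset _).1 hρ)
      have hstrip : ∀ ρ : ℂ, completedLFunction χ ρ = 0 → |ρ.im| ≤ T → ρ ∈ K := fun ρ hρ hi => by
        obtain ⟨a, b⟩ := completed_zero_strip hp hχ hρ
        exact hmemK ρ ⟨by linarith, by linarith⟩ (abs_le.1 hi)
      refine Finset.sum_congr ?_ fun ρ hρ => ?_
      · ext ρ
        rw [Finset.mem_filter, Multiset.mem_toFinset]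
        refine ⟨fun hρ => (Set.Finite.mem_toFinset _).2
          ((mem_lZeros_iff hp hχ).2 ⟨hZ0 ρ hρ.1, hρ.2.le⟩), fun hρ => ?_⟩
        obtain ⟨h1, h2⟩ := hin ρ hρ
        refine ⟨?_, lt_of_le_of_ne h2 (hord ρ h1)⟩
        rw [← Multiset.one_le_count_iff_mem, ← hcount ρ (hstrip ρ h1 h2)]
        exact (lMult_pos_iff hχ).2 h1
      · obtain ⟨h1, h2⟩ := hin ρ hρ
        rw [← hcount ρ (hstrip ρ h1 h2), nsmul_eq_mul, pTerm, lMult]
    have hval : ∀ a : ℂ, ((1 - T < a.re ∧ a.re < T) ∧ |a.im| < T) →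
        completedLFunction χ a ≠ 0 → deriv h a / h a + c a = lLog χ a := fun a ha hxa => by
      rw [lLog_factor hh' he (fun ρ hρ e => hxa (by rw [e]; exact hZ0 ρ hρ))
        (hne a (hmemK a ⟨ha.1.1.le, ha.1.2.le⟩ (abs_le.1 ha.2.le))), hc]
      ring
    rw [hsum, hval s hins hxs, hval 0 hin0 h00]
    ring
  · obtain ⟨h1, h2⟩ := hedge u hu
    have hus : u - s ≠ 0 :=
      sub_ne_zero.2 (interior_not_edge hins.1.1 hins.1.2 hins.2.ne (by linarith) hu)
    have hu0 : u ≠ 0 := interior_not_edge hin0.1.1 hin0.1.2 hin0.2.ne (by linarith) hu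
    have hm : (Z.map fun ρ => Q ρ u) = Z.map fun ρ =>
        s / (u * (u - s)) * (u - ρ)⁻¹ + (-(u - s)⁻¹) * (s - ρ)⁻¹ + u⁻¹ * (0 - ρ)⁻¹ := by
      refine Multiset.map_congr rfl fun ρ hρ => ?_
      have n1 := sub_ne_zero.2 (hzne u hu ρ hρ)
      have n2 := sub_ne_zero.2 (hρne ρ hρ).1
      have n3 := (hρne ρ hρ).2
      have n4 : s - ρ ≠ 0 := sub_ne_zero.2 (hρne ρ hρ).1.symm
      rw [hQ, zero_sub]
      field_simp
      ring
    dsimp only
    rw [hm, Multiset.sum_map_add, Multiset.sum_map_add, Multiset.sum_map_mul_left,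
      Multiset.sum_map_mul_left, Multiset.sum_map_mul_left,
      lLog_factor hh' he (hzne u hu) (hne u (hmemK u h1 h2)), hP, hc]
    simp only [sub_zero]
    field_simp
    ring

theorem norm_pair_le {s ρ : ℂ} (h : 2 * ‖s‖ + 1 ≤ |ρ.im|) :
    ‖(s - ρ)⁻¹ + ρ⁻¹‖ ≤ 8 * ‖s‖ * (1 / (1 + |ρ.im|) ^ 2) := by
  have hs := norm_nonneg s
  have hn1 : |ρ.im| ≤ ‖ρ‖ := abs_im_le_norm ρ
  have hn2 : |ρ.im| / 2 ≤ ‖s - ρ‖ := by
    have := norm_sub_norm_le ρ s
    rw [norm_sub_rev] at this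
    linarith
  have hρ0 : ρ ≠ 0 := norm_pos_iff.1 (by linarith)
  have hsρ : s - ρ ≠ 0 := norm_pos_iff.1 (by linarith)
  rw [show (s - ρ)⁻¹ + ρ⁻¹ = s / ((s - ρ) * ρ) by field_simp; ring, norm_div, norm_mul,
    mul_one_div]
  calc ‖s‖ / (‖s - ρ‖ * ‖ρ‖) ≤ ‖s‖ / (|ρ.im| / 2 * |ρ.im|) :=
        div_le_div_of_nonneg_left hs (mul_pos (by linarith) (by linarith))
          (mul_le_mul hn2 hn1 (abs_nonneg _) (norm_nonneg _))
    _ = 2 * ‖s‖ / |ρ.im| ^ 2 := by field_simp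
    _ ≤ 8 * ‖s‖ / (1 + |ρ.im|) ^ 2 := by
        rw [div_le_div_iff₀ (pow_pos (by linarith) 2) (by positivity)]
        nlinarith [mul_nonneg hs (mul_nonneg (show 0 ≤ |ρ.im| - 1 by linarith)
          (show 0 ≤ 3 * |ρ.im| + 1 by positivity))]

theorem summable_norm_pTerm (hp : χ.IsPrimitive) (hχ : χ ≠ 1) (s : ℂ) :
    Summable fun ρ => ‖pTerm χ s ρ‖ := by
  refine Summable.of_norm_bounded_eventually ((summable_sparse hp hχ).mul_left (8 * ‖s‖)) ?_
  rw [Filter.eventually_cofinite]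
  refine (finite_low_zeros hp hχ (2 * ‖s‖ + 1)).subset fun ρ hρ => ?_
  simp only [mem_ofPred_eq, norm_norm] at hρ ⊢
  by_cases hm : lMult χ ρ = 0
  · exact absurd (by simp [pTerm, sparse, hm]) hρ
  refine ⟨hm, not_lt.1 fun hgt => hρ ?_⟩
  rw [pTerm, norm_mul, Complex.norm_natCast, sparse]
  exact (mul_le_mul_of_nonneg_left (norm_pair_le hgt.le) (Nat.cast_nonneg _)).trans
    (le_of_eq (by ring))

/-- **The partial fractions.** -/
theorem lLog_sub_eq (hp : χ.IsPrimitive) (hχ : χ ≠ 1) {s : ℂ}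
    (hxs : completedLFunction χ s ≠ 0) : lLog χ s - lLog χ 0 = ∑' ρ, pTerm χ s ρ := by
  classical
  obtain ⟨M, hM0, hheight⟩ := exists_box_height hp hχ
  choose T hT1 hT2 hord hbound using fun m : ℕ =>
    hheight ((m : ℝ) + 2 * ‖s‖ + 8) (by linarith [norm_nonneg s, (Nat.cast_nonneg m : (0 : ℝ) ≤ m)])
  have hTtop : Tendsto T atTop atTop := tendsto_atTop_mono
    (fun m => by linarith [hT1 m, norm_nonneg s]) tendsto_natCast_atTop_atTop
  have hbd : ∀ m, ‖boxInt (fun u => lLog χ u * (s / (u * (u - s)))) (1 - T m) (T m) (T m)‖ ≤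
      128 * M * ‖s‖ * (T m) ^ (-(1 / 2) : ℝ) := by
    intro m
    have hsn := norm_nonneg s
    have hTm : 8 + 2 * ‖s‖ ≤ T m := by
      linarith [hT1 m, (Nat.cast_nonneg m : (0 : ℝ) ≤ m)]
    have hT0 : 0 < T m := by linarith
    refine (FA.LiCriterion.norm_boxInt_le (M := M * √(T m) * (16 * ‖s‖ / T m ^ 2))
      (by linarith) hT0.le fun u hu => ?_).trans ?_
    · rw [norm_mul]
      refine mul_le_mul (hbound m u hu) ?_ (norm_nonneg _) (by positivity)
      have hbig : T m / 2 ≤ ‖u‖ ∧ T m / 4 ≤ ‖u - s‖ := by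
        have h5 : T m - 1 ≤ ‖u‖ := by
          rcases hu.2.2 with h | h | h | h
          · refine le_trans ?_ (abs_im_le_norm u); rw [h, abs_neg, abs_of_pos hT0]; linarith
          · refine le_trans ?_ (abs_im_le_norm u); rw [h, abs_of_pos hT0]; linarith
          · refine le_trans ?_ (abs_re_le_norm u); rw [h, abs_of_neg (by linarith)]; linarith
          · refine le_trans ?_ (abs_re_le_norm u); rw [h, abs_of_pos hT0]; linarith
        exact ⟨by linarith, by linarith [norm_sub_norm_le u s]⟩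
      rw [norm_div, norm_mul]
      refine (div_le_div_of_nonneg_left hsn (by positivity)
        (mul_le_mul hbig.1 hbig.2 (by positivity) (norm_nonneg _))).trans ?_
      rw [div_le_div_iff₀ (by positivity) (by positivity)]
      nlinarith [mul_nonneg hsn (sq_nonneg (T m))]
    · have h6 : 2 * (T m - (1 - T m)) + 4 * T m ≤ 8 * T m := by linarith
      refine (mul_le_mul_of_nonneg_left h6 (by positivity)).trans (le_of_eq ?_)
      rw [Real.rpow_neg hT0.le, ← Real.sqrt_eq_rpow]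
      have hs2 : √(T m) * √(T m) = T m := Real.mul_self_sqrt hT0.le
      have hs0 : √(T m) ≠ 0 := (Real.sqrt_pos.2 hT0).ne'
      field_simp
      rw [sq, hs2]; ring
  have hlim : Tendsto (fun m => boxInt (fun u => lLog χ u * (s / (u * (u - s))))
      (1 - T m) (T m) (T m)) atTop (𝓝 0) := by
    refine squeeze_zero_norm hbd ?_
    simpa using ((tendsto_rpow_neg_atTop (show (0 : ℝ) < 1 / 2 by norm_num)).comp
      hTtop).const_mul (128 * M * ‖s‖)
  have hbox := fun m => boxInt_pFrac hp hχ hxs (T := T m)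
    (by linarith [hT1 m, norm_nonneg s, (Nat.cast_nonneg m : (0 : ℝ) ≤ m)])
    (by linarith [hT1 m, (Nat.cast_nonneg m : (0 : ℝ) ≤ m)]) (hord m)
  simp only [hbox] at hlim
  have hfin : Tendsto (fun m => ∑ ρ ∈ zerosUp χ hχ (T m), pTerm χ s ρ) atTop
      (𝓝 (∑' ρ, pTerm χ s ρ)) := by
    obtain ⟨V, hV⟩ : ∃ V : Set ℂ, V = {ρ | completedLFunction χ ρ = 0} := ⟨_, rfl⟩
    have hsupp : Function.support (pTerm χ s) ⊆ V := fun ρ hρ => by
      rw [hV]
      by_contra h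
      exact hρ (by simp [pTerm, lMult_eq_zero hχ (show completedLFunction χ ρ ≠ 0 from h)])
    have h : HasSum (pTerm χ s ∘ ((↑) : V → ℂ)) (∑' ρ, pTerm χ s ρ) :=
      (hasSum_subtype_iff_of_support_subset hsupp).2 (summable_norm_pTerm hp hχ s).of_norm.hasSum
    have hatTop : Tendsto (fun m => (zerosUp χ hχ (T m)).subtype fun ρ => ρ ∈ V) atTop atTop := by
      refine tendsto_atTop.2 fun S => ?_
      filter_upwards [hTtop.eventually (eventually_ge_atTop (∑ ρ ∈ S, |(ρ : ℂ).im|))] with m hm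
      intro ρ hρ
      have hz : completedLFunction χ (ρ : ℂ) = 0 := by
        have := ρ.2
        simpa only [hV, mem_ofPred_eq] using this
      rw [Finset.mem_subtype, zerosUp, Set.Finite.mem_toFinset]
      exact (mem_lZeros_iff hp hχ).2 ⟨hz, le_trans (Finset.single_le_sum
        (f := fun ρ : V => |(ρ : ℂ).im|) (fun i _ => abs_nonneg _) hρ) hm⟩
    exact (h.comp hatTop).congr fun m => Finset.sum_subtype_of_mem (fun ρ => pTerm χ s ρ)
      fun ρ hρ => hV ▸ ((mem_lZeros_iff hp hχ).1 ((Set.Finite.mem_toFinset _).1 hρ)).1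
  have heq := tendsto_nhds_unique hlim ((hfin.const_sub _).const_mul _)
  have hne : (2 : ℂ) * π * I ≠ 0 := by simp [Real.pi_ne_zero]
  exact sub_eq_zero.1 ((mul_eq_zero.1 heq.symm).resolve_left hne)

theorem hasSum_pTerm (hp : χ.IsPrimitive) (hχ : χ ≠ 1) {s : ℂ}
    (hxs : completedLFunction χ s ≠ 0) : HasSum (pTerm χ s) (lLog χ s - lLog χ 0) :=
  lLog_sub_eq hp hχ hxs ▸ (summable_norm_pTerm hp hχ s).of_norm.hasSum

end FA.DirichletHadamard

end
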