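import Fermat.Agent.DirichletHadamard.Partial

/-!
# `re B (χ)` and the real part of `ξ'/ξ`

Comparing the partial fractions at `s` and `1 - conj s` gives
`re (Λ'/Λ 0) + log q / 2 = -∑ m re (1 / ρ)` and
`re (Λ'/Λ s) + log q / 2 = ∑ m re (1 / (s - ρ))`.
-/

set_option autoImplicit false

noncomputable section

namespace FA.DirichletHadamard

open Complex Filter Topology Set
open DirichletCharacter (LFunction completedLFunction)
open FA.DirichletZeroCount FA.DirichletLandau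
open scoped Real ComplexConjugate

variable {q : ℕ} [NeZero q] {χ : DirichletCharacter ℂ q}

/-- `m re (1 / (s - ρ))`. -/
def realTerm (χ : DirichletCharacter ℂ q) (s ρ : ℂ) : ℝ := (lMult χ ρ : ℝ) * ((s - ρ)⁻¹).re

theorem summable_re_inv (hp : χ.IsPrimitive) (hχ : χ ≠ 1) :
    Summable fun ρ : ℂ => (lMult χ ρ : ℝ) * (ρ⁻¹).re := by
  refine Summable.of_norm_bounded_eventually ((summable_sparse hp hχ).mul_left 4) ?_
  rw [Filter.eventually_cofinite]
  refine (finite_low_zeros hp hχ 1).subset fun ρ hρ => ?_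
  simp only [mem_ofPred_eq] at hρ ⊢
  by_cases hm : lMult χ ρ = 0
  · exact absurd (by simp [sparse, hm]) hρ
  refine ⟨hm, not_lt.1 fun hgt => hρ ?_⟩
  obtain ⟨-, h0, h1⟩ := mem_strip_of_mult hp hχ hm
  have hn : |ρ.im| ^ 2 ≤ normSq ρ := by
    rw [normSq_apply, sq_abs]
    nlinarith
  rw [norm_mul, RCLike.norm_natCast, Real.norm_eq_abs, inv_re, abs_div, abs_of_pos h0,
    abs_of_nonneg (normSq_nonneg ρ), sparse, mul_left_comm 4]
  refine mul_le_mul_of_nonneg_left ?_ (Nat.cast_nonneg _)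
  rw [mul_one_div, div_le_div_iff₀ (lt_of_lt_of_le (pow_pos (by linarith) 2) hn) (by positivity)]
  calc ρ.re * (1 + |ρ.im|) ^ 2 ≤ 1 * (4 * |ρ.im| ^ 2) :=
        mul_le_mul h1.le (by nlinarith) (by positivity) zero_le_one
    _ ≤ 4 * normSq ρ := by linarith

theorem hasSum_realTerm_aux (hp : χ.IsPrimitive) (hχ : χ ≠ 1) {s : ℂ}
    (hxs : completedLFunction χ s ≠ 0) :
    HasSum (realTerm χ s)
      ((lLog χ s).re - (lLog χ 0).re - ∑' ρ : ℂ, (lMult χ ρ : ℝ) * (ρ⁻¹).re) := by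
  have h := (Complex.hasSum_re (hasSum_pTerm hp hχ hxs)).sub (summable_re_inv hp hχ).hasSum
  rw [sub_re] at h
  refine h.congr_fun fun ρ => ?_
  rw [realTerm, pTerm, ← ofReal_natCast, re_ofReal_mul, add_re]
  ring

/-- `ρ ↦ 1 - conj ρ`. -/
def reflectEquiv : ℂ ≃ ℂ where
  toFun ρ := 1 - conj ρ
  invFun ρ := 1 - conj ρ
  left_inv ρ := by simp
  right_inv ρ := by simp

theorem realTerm_reflect (hp : χ.IsPrimitive) (hχ : χ ≠ 1) (s ρ : ℂ) :
    realTerm χ (1 - conj s) (reflectEquiv ρ) = -realTerm χ s ρ := by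
  rw [realTerm, realTerm, show reflectEquiv ρ = 1 - conj ρ from rfl, lMult_reflect hp hχ,
    show 1 - conj s - (1 - conj ρ) = -conj (s - ρ) by rw [map_sub]; ring, inv_neg, ← map_inv₀,
    neg_re, conj_re, mul_neg]

/-- **`re B (χ) = -∑ re (1 / ρ)`.** -/
theorem tsum_re_inv (hp : χ.IsPrimitive) (hχ : χ ≠ 1) :
    ∑' ρ : ℂ, (lMult χ ρ : ℝ) * (ρ⁻¹).re = -(Real.log q / 2 + (lLog χ 0).re) := by
  obtain ⟨s, hs⟩ : ∃ s : ℂ, s = 2 := ⟨_, rfl⟩
  have hxs : completedLFunction χ s ≠ 0 := completed_ne_zero_right hχ (by simp [hs])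
  have hxs' : completedLFunction χ (1 - conj s) ≠ 0 := fun h => by
    have := (completed_zero_strip hp hχ h).1
    simp [hs] at this
  have h1 := hasSum_realTerm_aux hp hχ hxs
  have h2 := reflectEquiv.hasSum_iff.2 (hasSum_realTerm_aux hp hχ hxs')
  have h3 := (h2.congr_fun (g := fun ρ => -realTerm χ s ρ)
    fun ρ => (realTerm_reflect hp hχ s ρ).symm).unique h1.neg
  rw [lLog_reflect hp hχ (by simp [hs]) hxs, neg_re, add_re, conj_re, ofReal_re] at h3
  linarith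

/-- **`re (ξ'/ξ s) = ∑ m re (1 / (s - ρ))`.** -/
theorem hasSum_realTerm (hp : χ.IsPrimitive) (hχ : χ ≠ 1) {s : ℂ}
    (hxs : completedLFunction χ s ≠ 0) :
    HasSum (realTerm χ s) ((lLog χ s).re + Real.log q / 2) := by
  have h := hasSum_realTerm_aux hp hχ hxs
  rw [tsum_re_inv hp hχ] at h
  convert h using 1
  ring

theorem re_inv_sub (s ρ : ℂ) : ((s - ρ)⁻¹).re = (s.re - ρ.re) / normSq (s - ρ) := by
  rw [inv_re, sub_re]

/-- **The closed form of `∑ re (1 / ρ)`.** -/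
theorem tsum_re_inv_closed (hp : χ.IsPrimitive) (hχ : χ ≠ 1) :
    ∑' ρ : ℂ, (lMult χ ρ : ℝ) * (ρ⁻¹).re = Real.log (q / π) / 2 +
      (deriv Complex.Gamma ((1 + gShift χ) / 2) / Complex.Gamma ((1 + gShift χ) / 2)).re / 2 +
      (deriv (LFunction χ) 1 / LFunction χ 1).re := by
  have hx1 : completedLFunction χ 1 ≠ 0 := completed_ne_zero_right hχ le_rfl
  have h := hasSum_realTerm hp hχ hx1
  have h2 : HasSum (fun ρ : ℂ => (lMult χ ρ : ℝ) * (ρ⁻¹).re)
      ((lLog χ 1).re + Real.log q / 2) := by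
    refine (reflectEquiv.hasSum_iff.2 h).congr_fun fun ρ => ?_
    rw [Function.comp_apply, realTerm, show reflectEquiv ρ = 1 - conj ρ from rfl,
      lMult_reflect hp hχ, sub_sub_cancel, ← map_inv₀, conj_re]
  have hL : LFunction χ 1 ≠ 0 :=
    DirichletCharacter.LFunction_ne_zero_of_one_le_re χ (Or.inl hχ) (by simp)
  have hg : 0 < (1 + (gShift χ : ℂ)).re := by simp; linarith [(gShift_mem χ).1]
  have e := FA.Levinson.gammaLog_eq_digamma hg
  rw [FA.Levinson.gammaLog] at e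
  rw [h2.tsum_eq, lLog_eq_add hχ (by simp) hL, e,
    Real.log_div (Nat.cast_ne_zero.2 (NeZero.ne q)) Real.pi_ne_zero]
  simp
  ring

end FA.DirichletHadamard

end
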