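import Fermat.Agent.DirichletLandau.Distinct

/-!
# The zeros of `Λ (s, χ)`: symmetry and sparseness

The multiset of zeros of a primitive `Λ (s, χ)` is invariant under `ρ ↦ 1 - conj ρ`, and
`∑ m / (1 + |im ρ|)²` converges.
-/

set_option autoImplicit false

noncomputable section

namespace FA.DirichletHadamard

open Complex Filter Topology Set
open DirichletCharacter (completedLFunction rootNumber)
open FA.DirichletZeroCount FA.DirichletLandau
open scoped Real ComplexConjugate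

variable {q : ℕ} [NeZero q] {χ : DirichletCharacter ℂ q}

theorem lMult_pos_iff (hχ : χ ≠ 1) {ρ : ℂ} :
    0 < lMult χ ρ ↔ completedLFunction χ ρ = 0 := by
  refine ⟨fun h => ?_, fun h => Nat.pos_of_ne_zero fun h0 => ?_⟩
  · by_contra hne
    exact h.ne' (lMult_eq_zero hχ hne)
  · rw [lMult, analyticOrderNatAt] at h0
    rcases ENat.toNat_eq_zero.1 h0 with h0 | h0
    · exact ((DirichletCharacter.differentiable_completedLFunction hχ).analyticAt ρ
        ).analyticOrderAt_ne_zero.2 h h0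
    · exact order_completed_ne_top hχ ρ h0

theorem mem_strip_of_mult (hp : χ.IsPrimitive) (hχ : χ ≠ 1) {ρ : ℂ} (h : lMult χ ρ ≠ 0) :
    completedLFunction χ ρ = 0 ∧ 0 < ρ.re ∧ ρ.re < 1 := by
  have h0 := (lMult_pos_iff hχ).1 (Nat.pos_of_ne_zero h)
  exact ⟨h0, completed_zero_strip hp hχ h0⟩

theorem mult_support_countable (hp : χ.IsPrimitive) (hχ : χ ≠ 1) :
    {ρ : ℂ | lMult χ ρ ≠ 0}.Countable :=
  (Set.countable_iUnion fun n : ℕ => (finite_lZeros hχ n).countable).mono fun ρ hρ =>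
    Set.mem_iUnion.2 ⟨⌈|ρ.im|⌉₊,
      (mem_lZeros_iff hp hχ).2 ⟨(mem_strip_of_mult hp hχ hρ).1, Nat.le_ceil _⟩⟩

/-- **`Λ (conj z, χ⁻¹) = conj Λ (z, χ)` everywhere.** -/
theorem completed_conj_inv_all (hχ : χ ≠ 1) (z : ℂ) :
    completedLFunction χ⁻¹ (conj z) = conj (completedLFunction χ z) := by
  have hd := DirichletCharacter.differentiable_completedLFunction (inv_ne_one' hχ)
  have hd2 : Differentiable ℂ (conj ∘ completedLFunction χ ∘ conj) := fun w =>
    differentiableAt_conj_conj_iff.2 (DirichletCharacter.differentiable_completedLFunction hχ _)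
  have h := AnalyticOnNhd.eqOn_of_preconnected_of_eventuallyEq (U := univ)
    (fun w _ => hd.analyticAt w) (fun w _ => hd2.analyticAt w) isPreconnected_univ
    (mem_univ (2 : ℂ)) (by
      filter_upwards [(isOpen_lt continuous_const continuous_re).mem_nhds
        (show (0 : ℝ) < (2 : ℂ).re by norm_num)] with w hw
      have := completed_conj_inv hχ (s := conj w) (by rwa [conj_re])
      rwa [Complex.conj_conj] at this) (mem_univ (conj z))
  simpa using h

/-- **The functional equation as a reflection in the line.** -/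
theorem completed_reflect (hp : χ.IsPrimitive) (hχ : χ ≠ 1) (z : ℂ) :
    completedLFunction χ (1 - conj z) =
      (q : ℂ) ^ (conj z - 1 / 2) * rootNumber χ * conj (completedLFunction χ z) := by
  rw [hp.completedLFunction_one_sub, completed_conj_inv_all hχ]

theorem analyticOrderAt_conj_comp {f : ℂ → ℂ} (hf : Differentiable ℂ f) {z : ℂ} {n : ℕ}
    (hn : analyticOrderAt f z = n) : analyticOrderAt (conj ∘ f ∘ conj) (conj z) = n := by
  have hd : ∀ {g : ℂ → ℂ} {w : ℂ}, AnalyticAt ℂ g w →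
      AnalyticAt ℂ (conj ∘ g ∘ conj) (conj w) := fun {g w} hg => by
    rw [analyticAt_iff_eventually_differentiableAt] at hg ⊢
    have ht : Tendsto (fun v : ℂ => conj v) (𝓝 (conj w)) (𝓝 w) := by
      simpa using Complex.continuous_conj.tendsto (conj w)
    filter_upwards [ht.eventually hg] with v hv
    exact differentiableAt_conj_conj_iff.2 hv
  obtain ⟨g, hg, hg0, he⟩ := (hf.analyticAt z).analyticOrderAt_eq_natCast.1 hn
  refine (hd (hf.analyticAt z)).analyticOrderAt_eq_natCast.2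
    ⟨conj ∘ g ∘ conj, hd hg, by simpa using hg0, ?_⟩
  have ht : Tendsto (fun v : ℂ => conj v) (𝓝 (conj z)) (𝓝 z) := by
    simpa using Complex.continuous_conj.tendsto (conj z)
  filter_upwards [ht.eventually he] with v hv
  simp only [Function.comp_apply, hv, smul_eq_mul, map_mul, map_pow, map_sub, Complex.conj_conj]

/-- **`ρ` and `1 - conj ρ` have the same multiplicity.** -/
theorem lMult_reflect (hp : χ.IsPrimitive) (hχ : χ ≠ 1) (ρ : ℂ) :
    lMult χ (1 - conj ρ) = lMult χ ρ := by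
  have hd := DirichletCharacter.differentiable_completedLFunction hχ
  have hn := analyticOrderAt_conj_comp hd (z := ρ) (n := lMult χ ρ)
    (ENat.natCast_toNat (order_completed_ne_top hχ ρ)).symm
  have hg : AnalyticAt ℂ (fun s : ℂ => 1 - s) (conj ρ) := analyticAt_const.sub analyticAt_id
  have hu : AnalyticAt ℂ (fun s : ℂ => (q : ℂ) ^ (s - 1 / 2) * rootNumber χ) (conj ρ) :=
    (Differentiable.mul_const (fun s => DifferentiableAt.const_cpow
      (differentiableAt_id.sub_const _) (Or.inl level_cast_ne_zero)) _).analyticAt _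
  have hcd : Differentiable ℂ (conj ∘ completedLFunction χ ∘ conj) := fun w =>
    differentiableAt_conj_conj_iff.2 (hd _)
  have he : (completedLFunction χ ∘ fun s : ℂ => 1 - s) =
      (fun s : ℂ => (q : ℂ) ^ (s - 1 / 2) * rootNumber χ) *
        (conj ∘ completedLFunction χ ∘ conj) := funext fun s => by
    have := completed_reflect hp hχ (conj s)
    simpa using this
  have hc : (q : ℂ) ^ (conj ρ - 1 / 2) * rootNumber χ ≠ 0 :=
    mul_ne_zero (Complex.cpow_ne_zero_iff.2 (Or.inl level_cast_ne_zero))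
      (rootNumber_ne_zero' hp hχ)
  have h := analyticOrderAt_mul hu (hcd.analyticAt (conj ρ))
  rw [← he, analyticOrderAt_comp_of_deriv_ne_zero hg (by simp),
    hu.analyticOrderAt_eq_zero.2 hc, zero_add, hn] at h
  rw [lMult, analyticOrderNatAt, h, ENat.toNat_natCast]

theorem sqrt_add_three_le {k : ℝ} (hk : 0 ≤ k) : √(k + 3) ≤ 2 * √(k + 1) := by
  rw [Real.sqrt_le_left (by positivity), mul_pow, Real.sq_sqrt (by positivity)]
  linarith

theorem qLog_le_sqrt (q : ℕ) [NeZero q] {k : ℝ} (hk : 0 ≤ k) :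
    qLog q k ≤ (Real.log q + 4) * √(k + 1) := by
  have h := Real.log_le_sub_one_of_pos (Real.sqrt_pos.2 (show 0 < k + 3 by linarith))
  rw [Real.log_sqrt (by linarith)] at h
  have h1 : 1 ≤ √(k + 1) := Real.one_le_sqrt.2 (by linarith)
  rw [qLog, abs_of_nonneg hk, Real.log_mul (Nat.cast_ne_zero.2 (NeZero.ne q)) (by linarith)]
  nlinarith [sqrt_add_three_le hk, Real.log_natCast_nonneg q]

/-- The sparseness weight. -/
def sparse (χ : DirichletCharacter ℂ q) (ρ : ℂ) : ℝ := (lMult χ ρ : ℝ) * (1 / (1 + |ρ.im|) ^ 2)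

theorem sparse_nonneg (χ : DirichletCharacter ℂ q) (ρ : ℂ) : 0 ≤ sparse χ ρ := by
  rw [sparse]
  positivity

theorem exists_sum_sparse_le (hp : χ.IsPrimitive) (hχ : χ ≠ 1) :
    ∃ C, ∀ S : Finset ℂ, ∑ ρ ∈ S, sparse χ ρ ≤ C := by
  classical
  obtain ⟨W, hW0, hW⟩ := exists_lZeroCount_window
  obtain ⟨A, hA⟩ : ∃ A, A = W * (Real.log q + 4) := ⟨_, rfl⟩
  have hA0 : 0 ≤ A := hA ▸ mul_nonneg hW0 (by linarith [Real.log_natCast_nonneg q])
  have hser : Summable fun k : ℕ => ((k : ℝ) + 1) ^ (-(3 / 2 : ℝ)) := by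
    have h := (summable_nat_add_iff (f := fun n : ℕ => (n : ℝ) ^ (-(3 / 2 : ℝ))) 1).2
      (Real.summable_nat_rpow.2 (by norm_num))
    simpa using h
  refine ⟨lZeroCount χ 0 + A * ∑' k : ℕ, ((k : ℝ) + 1) ^ (-(3 / 2 : ℝ)), fun S => ?_⟩
  have hmono : ∀ {a b : ℝ}, a ≤ b → zerosUp χ hχ a ⊆ zerosUp χ hχ b := fun h =>
    Set.Finite.toFinset_subset_toFinset.2 fun ρ ⟨a, b, c, d⟩ => ⟨a, b, c, d.trans h⟩
  have hcount : ∀ N : ℕ, ∑ ρ ∈ zerosUp χ hχ N, sparse χ ρ ≤
      lZeroCount χ 0 + A * ∑ k ∈ Finset.range N, ((k : ℝ) + 1) ^ (-(3 / 2 : ℝ)) := by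
    intro N
    induction N with
    | zero =>
      rw [Finset.range_zero, Finset.sum_empty, mul_zero, add_zero, Nat.cast_zero,
        lZeroCount_eq_lMult hp hχ 0 (U := zerosUp χ hχ 0) subset_rfl
          (fun ρ hρ => ((Set.Finite.mem_toFinset _).1 hρ).2.2.2), Nat.cast_sum]
      refine Finset.sum_le_sum fun ρ _ => mul_le_of_le_one_right (Nat.cast_nonneg _) ?_
      rw [div_le_one (by positivity)]
      exact one_le_pow₀ (by linarith [abs_nonneg ρ.im])
    | succ N ih =>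
      have hsub := hmono (show (N : ℝ) ≤ (N + 1 : ℕ) by push_cast; linarith)
      rw [← Finset.sum_sdiff hsub, Finset.sum_range_succ, mul_add, ← add_assoc, add_comm]
      refine add_le_add ih ?_
      obtain ⟨d, hd⟩ : ∃ d : ℝ, d = 1 / (1 + (N : ℝ)) ^ 2 := ⟨_, rfl⟩
      have h1 : ∑ ρ ∈ zerosUp χ hχ ((N + 1 : ℕ) : ℝ) \ zerosUp χ hχ N, sparse χ ρ ≤
          ∑ ρ ∈ zerosUp χ hχ ((N + 1 : ℕ) : ℝ) \ zerosUp χ hχ N, (lMult χ ρ : ℝ) * d := by
        refine Finset.sum_le_sum fun ρ hρ => mul_le_mul_of_nonneg_left ?_ (Nat.cast_nonneg _)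
        obtain ⟨hρ1, hρ2⟩ := Finset.mem_sdiff.1 hρ
        rw [zerosUp, Set.Finite.mem_toFinset] at hρ1 hρ2
        have : (N : ℝ) < |ρ.im| :=
          not_le.1 fun h => hρ2 ⟨hρ1.1, hρ1.2.1, hρ1.2.2.1, h⟩
        rw [hd]
        exact one_div_le_one_div_of_le (by positivity)
          (pow_le_pow_left₀ (by positivity) (by linarith) 2)
      refine h1.trans ?_
      rw [← Finset.sum_mul]
      have h2 : ∑ ρ ∈ zerosUp χ hχ ((N + 1 : ℕ) : ℝ) \ zerosUp χ hχ N, (lMult χ ρ : ℝ) =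
          (lZeroCount χ ((N + 1 : ℕ) : ℝ) : ℝ) - lZeroCount χ N := by
        rw [lZeroCount_eq_lMult hp hχ _ (U := zerosUp χ hχ ((N + 1 : ℕ) : ℝ)) subset_rfl
            (fun ρ hρ => ((Set.Finite.mem_toFinset _).1 hρ).2.2.2),
          lZeroCount_eq_lMult hp hχ _ (U := zerosUp χ hχ N) subset_rfl
            (fun ρ hρ => ((Set.Finite.mem_toFinset _).1 hρ).2.2.2), Nat.cast_sum, Nat.cast_sum,
          ← Finset.sum_sdiff hsub, add_sub_cancel_right]
      have h3 := (hW q χ hp hχ N (Nat.cast_nonneg N)).trans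
        (mul_le_mul_of_nonneg_left (qLog_le_sqrt q (Nat.cast_nonneg N)) hW0)
      rw [← mul_assoc, ← hA] at h3
      have h4 : √((N : ℝ) + 1) * d = ((N : ℝ) + 1) ^ (-(3 / 2 : ℝ)) := by
        have hN : (0 : ℝ) < (N : ℝ) + 1 := by positivity
        rw [hd, Real.sqrt_eq_rpow, add_comm (1 : ℝ),
          one_div (((N : ℝ) + 1) ^ 2), ← Real.rpow_natCast,
          ← Real.rpow_neg hN.le, ← Real.rpow_add hN]
        norm_num
      rw [h2, Nat.cast_succ, ← h4, ← mul_assoc]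
      exact mul_le_mul_of_nonneg_right h3 (hd ▸ by positivity)
  obtain ⟨N, hN⟩ : ∃ N : ℕ, ∀ ρ ∈ S, |ρ.im| ≤ (N : ℝ) := ⟨⌈∑ ρ ∈ S, |ρ.im|⌉₊, fun ρ hρ =>
    (Finset.single_le_sum (f := fun ρ : ℂ => |ρ.im|) (fun i _ => abs_nonneg _) hρ).trans
      (Nat.le_ceil _)⟩
  calc ∑ ρ ∈ S, sparse χ ρ = ∑ ρ ∈ S with ρ ∈ zerosUp χ hχ N, sparse χ ρ := by
        refine (Finset.sum_filter_of_ne fun ρ hρ hne => ?_).symm
        by_contra h
        exact hne (by rw [sparse, lMult_eq_zero_of_notMem hp hχ (hN ρ hρ) h]; simp)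
    _ ≤ ∑ ρ ∈ zerosUp χ hχ N, sparse χ ρ :=
        Finset.sum_le_sum_of_subset_of_nonneg (fun ρ hρ => (Finset.mem_filter.1 hρ).2)
          fun ρ _ _ => sparse_nonneg χ ρ
    _ ≤ lZeroCount χ 0 + A * ∑ k ∈ Finset.range N, ((k : ℝ) + 1) ^ (-(3 / 2 : ℝ)) := hcount N
    _ ≤ _ := add_le_add le_rfl (mul_le_mul_of_nonneg_left
        (hser.sum_le_tsum _ fun k _ => by positivity) hA0)

theorem summable_sparse (hp : χ.IsPrimitive) (hχ : χ ≠ 1) : Summable (sparse χ) := by
  obtain ⟨C, hC⟩ := exists_sum_sparse_le hp hχ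
  exact summable_of_sum_le (sparse_nonneg χ) hC

/-- Eventually `|im ρ|` is large on the zeros. -/
theorem finite_low_zeros (hp : χ.IsPrimitive) (hχ : χ ≠ 1) (B : ℝ) :
    {ρ : ℂ | lMult χ ρ ≠ 0 ∧ |ρ.im| ≤ B}.Finite :=
  (finite_lZeros hχ B).subset fun _ hρ =>
    (mem_lZeros_iff hp hχ).2 ⟨(mem_strip_of_mult hp hχ hρ.1).1, hρ.2⟩

end FA.DirichletHadamard

end
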